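import Mathlib

/-!
# GALREP / KUM-HECKE (helper9160): generic field theory

* `finrank_tower_along` : tower law through a `K`-algebra hom `α : F₁ → F₂`,
  `[F₁ : K(x)] * [F₂ : α F₁] = [F₂ : K(α x)]`.
* `finite_along` : `F₂` is finite over `α F₁` if it is finite over `K(α x)`.
* `prod_eq_norm_alg` : a full set of embeddings computes the norm (algebra form of the landed
  `S24.OP2848.prod_eq_norm`).
-/

set_option autoImplicit false

open IntermediateField

namespace Fermat.Agent.S30.KH9160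

section Tower

variable {K F₁ F₂ : Type*} [Field K] [Field F₁] [Field F₂] [Algebra K F₁] [Algebra K F₂]

/-- The isomorphism `K(x) ≃ K(α x)` induced by `α`. -/
noncomputable def adjoinEquivAlong (α : F₁ →ₐ[K] F₂) (x : F₁) : K⟮x⟯ ≃ₐ[K] K⟮α x⟯ :=
  (IntermediateField.equivMap K⟮x⟯ α).trans
    (IntermediateField.equivOfEq (by rw [IntermediateField.adjoin_map, Set.image_singleton]))

theorem coe_adjoinEquivAlong (α : F₁ →ₐ[K] F₂) (x : F₁) (y : K⟮x⟯) :
    ((adjoinEquivAlong α x y : K⟮α x⟯) : F₂) = α (y : F₁) := rfl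

theorem finrank_comp_eq (α : F₁ →ₐ[K] F₂) (x : F₁) :
    letI : Algebra K⟮x⟯ F₂ := (α.toRingHom.comp (algebraMap K⟮x⟯ F₁)).toAlgebra
    Module.finrank K⟮x⟯ F₂ = Module.finrank K⟮α x⟯ F₂ := by
  let _ : Algebra K⟮x⟯ F₂ := (α.toRingHom.comp (algebraMap K⟮x⟯ F₁)).toAlgebra
  refine Algebra.finrank_eq_of_equiv_equiv (adjoinEquivAlong α x).toRingEquiv (RingEquiv.refl F₂) ?_
  ext y
  rfl

/-- Tower law along `α`. -/
theorem finrank_tower_along (α : F₁ →ₐ[K] F₂) (x : F₁) (x' : F₂) (hx : α x = x') :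
    letI := α.toRingHom.toAlgebra
    Module.finrank K⟮x⟯ F₁ * Module.finrank F₁ F₂ = Module.finrank K⟮x'⟯ F₂ := by
  subst hx
  let _ := α.toRingHom.toAlgebra
  let _ : Algebra K⟮x⟯ F₂ := (α.toRingHom.comp (algebraMap K⟮x⟯ F₁)).toAlgebra
  have : IsScalarTower K⟮x⟯ F₁ F₂ := IsScalarTower.of_algebraMap_eq (fun _ => rfl)
  rw [Module.finrank_mul_finrank]
  exact finrank_comp_eq α x

/-- Finiteness along `α`. -/
theorem finite_along (α : F₁ →ₐ[K] F₂) (x : F₁) (x' : F₂) (hx : α x = x')
    [FiniteDimensional K⟮x'⟯ F₂] :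
    letI := α.toRingHom.toAlgebra
    Module.Finite F₁ F₂ := by
  subst hx
  let _ := α.toRingHom.toAlgebra
  let _ : Algebra K⟮x⟯ F₂ := (α.toRingHom.comp (algebraMap K⟮x⟯ F₁)).toAlgebra
  have : IsScalarTower K⟮x⟯ F₁ F₂ := IsScalarTower.of_algebraMap_eq (fun _ => rfl)
  have h1 : 0 < Module.finrank K⟮x⟯ F₂ :=
    lt_of_lt_of_eq Module.finrank_pos (finrank_comp_eq α x).symm
  have : Module.Finite K⟮x⟯ F₂ := Module.finite_of_finrank_pos h1
  exact Module.Finite.of_restrictScalars_finite K⟮x⟯ F₁ F₂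

end Tower

section NormProd

/-- If `σ q` (`q ∈ Q`) are `[F : L]` pairwise distinct ring homs `F → M` that agree on `L`,
then `∏ q, σ q f = σ q₀ (N_{F/L} f)`. -/
theorem prod_eq_norm_alg {L F M Q : Type*} [Field L] [Field F] [Algebra L F] [CharZero L]
    [FiniteDimensional L F] [Field M] [Fintype Q]
    (hQ : Fintype.card Q = Module.finrank L F)
    (σ : Q → F →+* M) (hσ : Function.Injective σ)
    (hL : ∀ q q' (l : L), σ q (algebraMap L F l) = σ q' (algebraMap L F l)) (q₀ : Q) (f : F) :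
    ∏ q, σ q f = σ q₀ (algebraMap L F (Algebra.norm L f)) := by
  classical
  let E := AlgebraicClosure M
  let φ : L →+* E := ((algebraMap M E).comp (σ q₀)).comp (algebraMap L F)
  let _ : Algebra L E := φ.toAlgebra
  let τ : Q → (F →ₐ[L] E) := fun q =>
    { toRingHom := (algebraMap M E).comp (σ q)
      commutes' := fun l => by
        show algebraMap M E (σ q (algebraMap L F l)) = algebraMap M E (σ q₀ (algebraMap L F l))
        rw [hL q q₀ l] }
  have hτinj : Function.Injective τ := by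
    intro q q' h
    apply hσ
    ext x
    have h1 := congrArg (fun t : F →ₐ[L] E => t x) h
    exact (algebraMap M E).injective h1
  have hcard : Fintype.card (F →ₐ[L] E) = Fintype.card Q := by rw [AlgHom.card, hQ]
  have hτbij : Function.Bijective τ :=
    (Fintype.bijective_iff_injective_and_card τ).mpr ⟨hτinj, hcard.symm⟩
  have hnorm := Algebra.norm_eq_prod_embeddings L E f
  have hprod : ∏ q, τ q f = ∏ t : F →ₐ[L] E, t f :=
    Fintype.prod_bijective τ hτbij _ _ (fun _ => rfl)
  apply (algebraMap M E).injective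
  rw [map_prod]
  exact hprod.trans hnorm.symm

end NormProd

end Fermat.Agent.S30.KH9160
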