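import Fermat.Agent.S30.KumHecke9160.Phi
import Fermat.Agent.S30.KumHecke9160.Tower
import Fermat.Agent.S24.B4Glue
import Fermat.Agent.S24.Degree

/-!
# GALREP / KUM-HECKE (helper9160), S3 + S4: degree of `α` and the NORM-COSET formula

* `finiteAlong_heckeAlphaBar`  : `F_{Nℓ}` is finite over `F_N` along `α = heckeAlphaBar`;
* `finrankAlong_heckeAlphaBar` : `[F_{Nℓ} : α F_N] = #(Γ₀(N) / Γ₀(Nℓ))`;
* `Phi_norm_heckeAlphaBar`     : `Phi N (Norm_α y) = ∏_{q ∈ Γ₀(N)/Γ₀(Nℓ)} merAut γ_q (Phi (Nℓ) y)`.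
-/

set_option autoImplicit false

open UpperHalfPlane Complex ModularCurve ModularForm AlgebraicCurve IntermediateField
open scoped MatrixGroups Manifold Topology

namespace Fermat.Agent.S30.KH9160

open Fermat.Agent.S24 CongruenceSubgroup

noncomputable section

variable (N ℓ : ℕ) [NeZero N] [NeZero ℓ]

theorem heckeAlphaBar_jBar :
    heckeAlphaBar (AlgebraicClosure ℚ) N ℓ (jBar N) = jBar (N * ℓ) := by
  apply Subtype.ext
  rw [coe_heckeAlphaBar]
  rfl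

omit [NeZero N] [NeZero ℓ] in
theorem Gamma0_mul_le : Gamma0 (N * ℓ) ≤ Gamma0 N := by
  intro γ hγ
  rw [Gamma0_mem, ZMod.intCast_zmod_eq_zero_iff_dvd] at hγ ⊢
  exact (Int.natCast_dvd_natCast.mpr (dvd_mul_right N ℓ)).trans hγ

/-- S3a: `α` is finite. -/
theorem finiteAlong_heckeAlphaBar :
    FiniteAlong (AlgebraicClosure ℚ) (heckeAlphaBar (AlgebraicClosure ℚ) N ℓ) := by
  have := finiteDimensional_jBar (N * ℓ)
  exact finite_along (heckeAlphaBar (AlgebraicClosure ℚ) N ℓ) (jBar N) (jBar (N * ℓ))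
    (heckeAlphaBar_jBar N ℓ)

/-- The coset space `Γ₀(N) / Γ₀(Nℓ)`. -/
abbrev QRel : Type := ↥(Gamma0 N) ⧸ (Gamma0 (N * ℓ)).subgroupOf (Gamma0 N)

instance instFiniteQRel : Finite (QRel N ℓ) := by
  have : (Gamma0 (N * ℓ)).FiniteIndex := inferInstance
  exact Subgroup.finite_quotient_of_finiteIndex

instance instFintypeQRel : Fintype (QRel N ℓ) := Fintype.ofFinite _

/-- S3b: the degree of `α` is the relative index. -/
theorem finrankAlong_heckeAlphaBar :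
    finrankAlong (AlgebraicClosure ℚ) (heckeAlphaBar (AlgebraicClosure ℚ) N ℓ)
      = Nat.card (QRel N ℓ) := by
  have h1 := finrank_tower_along (heckeAlphaBar (AlgebraicClosure ℚ) N ℓ) (jBar N) (jBar (N * ℓ))
    (heckeAlphaBar_jBar N ℓ)
  rw [finrank_jBar N, finrank_jBar (N * ℓ)] at h1
  have h2 : Nat.card (QRel N ℓ) * Nat.card (Q0 N) = Nat.card (Q0 (N * ℓ)) :=
    Subgroup.relIndex_mul_index (Gamma0_mul_le N ℓ)
  have h3 : 0 < Nat.card (Q0 N) := Nat.card_pos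
  have h4 : Nat.card (Q0 N) * finrankAlong (AlgebraicClosure ℚ)
      (heckeAlphaBar (AlgebraicClosure ℚ) N ℓ) = Nat.card (Q0 N) * Nat.card (QRel N ℓ) :=
    h1.trans (h2.symm.trans (mul_comm _ _))
  exact Nat.eq_of_mul_eq_mul_left h3 h4

/-- The embeddings `merAut γ ∘ Phi (Nℓ)`, `γ ∈ Γ₀(N) / Γ₀(Nℓ)`. -/
def relEmb : QRel N ℓ → ↥(modularFunctionFieldBar (N * ℓ)) →+* B2M.MerH :=
  B4Glue.cosetEmb ((Gamma0 (N * ℓ)).subgroupOf (Gamma0 N)) (B2M.merAut.comp (Gamma0 N).subtype)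
    (Phi (N * ℓ)) (fun γ hγ f => merAut_Phi (N * ℓ) (γ : SL(2, ℤ)) (Subgroup.mem_subgroupOf.mp hγ) f)

theorem relEmb_mk (γ : Gamma0 N) (y : ↥(modularFunctionFieldBar (N * ℓ))) :
    relEmb N ℓ (QuotientGroup.mk γ) y = B2M.merAut (γ : SL(2, ℤ)) (Phi (N * ℓ) y) := rfl

theorem relEmb_injective : Function.Injective (relEmb N ℓ) := by
  apply B4Glue.cosetEmb_injective
  intro γ h
  rw [Subgroup.mem_subgroupOf]
  exact mem_Gamma0_of_merAut_Phi (N * ℓ) (γ : SL(2, ℤ)) h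

theorem relEmb_heckeAlphaBar (q : QRel N ℓ) (f : ↥(modularFunctionFieldBar N)) :
    relEmb N ℓ q (heckeAlphaBar (AlgebraicClosure ℚ) N ℓ f) = Phi N f := by
  induction q using QuotientGroup.induction_on with
  | H γ => rw [relEmb_mk, Phi_heckeAlphaBar, merAut_Phi N (γ : SL(2, ℤ)) γ.2]

/-- S4 (NORM-COSET): `Phi N (Norm_α y) = ∏_{q ∈ Γ₀(N)/Γ₀(Nℓ)} merAut γ_q (Phi (Nℓ) y)`. -/
theorem Phi_norm_heckeAlphaBar (y : ↥(modularFunctionFieldBar (N * ℓ))) :
    letI := algebraAlong (heckeAlphaBar (AlgebraicClosure ℚ) N ℓ)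
    Phi N (Algebra.norm ↥(modularFunctionFieldBar N) y) = ∏ q : QRel N ℓ, relEmb N ℓ q y := by
  let _ := algebraAlong (heckeAlphaBar (AlgebraicClosure ℚ) N ℓ)
  have : Module.Finite ↥(modularFunctionFieldBar N) ↥(modularFunctionFieldBar (N * ℓ)) :=
    finiteAlong_heckeAlphaBar N ℓ
  have : CharZero ↥(modularFunctionFieldBar N) :=
    charZero_of_injective_algebraMap
      (algebraMap (AlgebraicClosure ℚ) ↥(modularFunctionFieldBar N)).injective
  have hQ : Fintype.card (QRel N ℓ)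
      = Module.finrank ↥(modularFunctionFieldBar N) ↥(modularFunctionFieldBar (N * ℓ)) := by
    rw [← Nat.card_eq_fintype_card]
    exact (finrankAlong_heckeAlphaBar N ℓ).symm
  have h := prod_eq_norm_alg hQ (relEmb N ℓ) (relEmb_injective N ℓ)
    (fun q q' l => by
      show relEmb N ℓ q (heckeAlphaBar (AlgebraicClosure ℚ) N ℓ l)
        = relEmb N ℓ q' (heckeAlphaBar (AlgebraicClosure ℚ) N ℓ l)
      rw [relEmb_heckeAlphaBar, relEmb_heckeAlphaBar])
    (QuotientGroup.mk (1 : Gamma0 N)) y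
  rw [h]
  exact (relEmb_heckeAlphaBar N ℓ _ _).symm

end

end Fermat.Agent.S30.KH9160
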