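import Fermat.Agent.S30.KumHecke9160.NormCoset
import Fermat.Prelude.Thm_ModularForm_heckeT_slash_eq_self_of_mem_Gamma0

/-!
# GALREP / KUM-HECKE (helper9160), S5: the NORM-HECKE formula

For `ℓ` prime, `ℓ ∤ N` and `f ∈ F_N`:
`Phi N (Norm_α (β f)) = ∏_{x : P¹(𝔽_ℓ)} merPre (heckeRep ℓ x) (Phi N f)`,
with the Prelude coset representatives `heckeRep ℓ x` (`τ ↦ ℓτ` and `τ ↦ (τ + b)/ℓ`).
-/

set_option autoImplicit false

open UpperHalfPlane Complex ModularCurve ModularForm AlgebraicCurve IntermediateField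
open scoped MatrixGroups Manifold Topology OnePoint
open P2MW.S_ModularForm_heckeT_slash_eq_self_of_mem_Gamma0.ModularForm.HeckeSlashInvariance
  (heckeRep heckeRep_mul redMatrix heckeRep_infty heckeRep_coe redMatrix_apply_zero_zero
    redMatrix_apply_one_zero det_eq)

namespace Fermat.Agent.S30.KH9160

open Fermat.Agent.S24 CongruenceSubgroup Matrix.SpecialLinearGroup

noncomputable section

section Cusp

variable {ℓ : ℕ} [Fact ℓ.Prime]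

omit [Fact ℓ.Prime] in
theorem det_heckeRep_pos (x : OnePoint (ZMod ℓ)) : 0 < (heckeRep ℓ x).det.val := by
  cases x with
  | infty => exact det_heckeDiagMatrix_pos ℓ
  | coe j => exact det_heckeMatrix_pos ℓ j.val

/-- The point `∞ · g` of `P¹(𝔽_ℓ)` (right action of `SL(2,ℤ)` through `redMatrix`). -/
def cuspOf (ℓ : ℕ) [Fact ℓ.Prime] (g : SL(2, ℤ)) : OnePoint (ZMod ℓ) :=
  redMatrix ℓ g • (∞ : OnePoint (ZMod ℓ))

theorem cuspOf_eq_ite (g : SL(2, ℤ)) :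
    cuspOf ℓ g = if ((g 1 0 : ℤ) : ZMod ℓ) = 0 then ∞
      else ((((g 1 1 : ℤ) : ZMod ℓ) / ((g 1 0 : ℤ) : ZMod ℓ) : ZMod ℓ) : OnePoint (ZMod ℓ)) := by
  rw [cuspOf, OnePoint.smul_infty_eq_ite, redMatrix_apply_one_zero, redMatrix_apply_zero_zero]

theorem sl2_mul_inv_one_zero (g₁ g₂ : SL(2, ℤ)) :
    (g₁ * g₂⁻¹) 1 0 = g₁ 1 0 * g₂ 1 1 - g₁ 1 1 * g₂ 1 0 := by
  rw [Matrix.SpecialLinearGroup.coe_mul, Matrix.SpecialLinearGroup.coe_inv,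
    Matrix.mul_apply, Fin.sum_univ_two, Matrix.adjugate_fin_two]
  simp
  ring

theorem cast_entry_ne_zero_of (g : SL(2, ℤ)) (h : ((g 1 0 : ℤ) : ZMod ℓ) = 0) :
    ((g 1 1 : ℤ) : ZMod ℓ) ≠ 0 := by
  intro h1
  have hd := congrArg (Int.cast : ℤ → ZMod ℓ) (det_eq g)
  push_cast at hd
  rw [h, h1] at hd
  simp at hd

/-- Lemma R: two elements have the same image point iff `ℓ ∣ (g₁ g₂⁻¹)₁₀`. -/
theorem cuspOf_eq_iff (g₁ g₂ : SL(2, ℤ)) :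
    cuspOf ℓ g₁ = cuspOf ℓ g₂ ↔ (ℓ : ℤ) ∣ (g₁ * g₂⁻¹) 1 0 := by
  rw [← ZMod.intCast_zmod_eq_zero_iff_dvd, sl2_mul_inv_one_zero, cuspOf_eq_ite, cuspOf_eq_ite]
  push_cast
  by_cases h1 : ((g₁ 1 0 : ℤ) : ZMod ℓ) = 0
  · by_cases h2 : ((g₂ 1 0 : ℤ) : ZMod ℓ) = 0
    · simp [h1, h2]
    · rw [if_pos h1, if_neg h2, h1]
      have hd := cast_entry_ne_zero_of g₁ h1
      constructor
      · intro h
        exact absurd h (OnePoint.infty_ne_coe _)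
      · intro h
        rw [zero_mul, zero_sub, neg_eq_zero] at h
        rcases mul_eq_zero.mp h with h | h
        · exact absurd h hd
        · exact absurd h h2
  · by_cases h2 : ((g₂ 1 0 : ℤ) : ZMod ℓ) = 0
    · rw [if_neg h1, if_pos h2, h2]
      have hd := cast_entry_ne_zero_of g₂ h2
      constructor
      · intro h
        exact absurd h (OnePoint.coe_ne_infty _)
      · intro h
        rw [mul_zero, sub_zero] at h
        rcases mul_eq_zero.mp h with h | h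
        · exact absurd h h1
        · exact absurd h hd
    · rw [if_neg h1, if_neg h2, OnePoint.coe_eq_coe, div_eq_div_iff h1 h2, sub_eq_zero]
      constructor
      · intro h
        linear_combination -h
      · intro h
        linear_combination -h

theorem cuspOf_one : cuspOf ℓ 1 = ∞ := by
  rw [cuspOf_eq_ite]
  simp

/-- Surjectivity: every point of `P¹(𝔽_ℓ)` is `∞ · g` with `g ∈ Γ₀(N)` (`ℓ ∤ N`). -/
theorem exists_cuspOf_eq {N : ℕ} (hℓN : ¬ ℓ ∣ N) (x : OnePoint (ZMod ℓ)) :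
    ∃ g : SL(2, ℤ), g ∈ Gamma0 N ∧ cuspOf ℓ g = x := by
  have hℓ : ℓ.Prime := Fact.out
  cases x with
  | infty => exact ⟨1, one_mem _, cuspOf_one⟩
  | coe b =>
    have hcop : IsCoprime (N : ℤ) ((ℓ : ℤ) + (N : ℤ) * (b.val : ℤ)) := by
      apply IsCoprime.add_mul_left_right
      exact Nat.isCoprime_iff_coprime.mpr ((Nat.Prime.coprime_iff_not_dvd hℓ).mpr hℓN).symm
    obtain ⟨u, v, huv⟩ := hcop
    let g : SL(2, ℤ) := ⟨!![v, -u; (N : ℤ), (ℓ : ℤ) + (N : ℤ) * (b.val : ℤ)], by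
      rw [Matrix.det_fin_two_of]
      linarith⟩
    have g10 : g 1 0 = (N : ℤ) := rfl
    have g11 : g 1 1 = (ℓ : ℤ) + (N : ℤ) * (b.val : ℤ) := rfl
    have hN0 : ((N : ℕ) : ZMod ℓ) ≠ 0 := by
      rw [Ne, ZMod.natCast_eq_zero_iff]
      exact hℓN
    refine ⟨g, ?_, ?_⟩
    · rw [Gamma0_mem, g10]
      simp
    · rw [cuspOf_eq_ite, g10, g11]
      push_cast
      rw [if_neg hN0, OnePoint.coe_eq_coe, ZMod.natCast_self, zero_add, ZMod.natCast_zmod_val,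
        mul_div_cancel_left₀ _ hN0]

end Cusp

section Main

variable (N : ℕ) [NeZero N] {ℓ : ℕ} [Fact ℓ.Prime]

local instance : NeZero ℓ := ⟨(Fact.out : ℓ.Prime).ne_zero⟩

/-- The bijection `Γ₀(N)/Γ₀(Nℓ) → P¹(𝔽_ℓ)`, `γ ↦ ∞ · γ⁻¹`. -/
def cuspMap : QRel N ℓ → OnePoint (ZMod ℓ) :=
  fun q => cuspOf ℓ ((q.out : Gamma0 N) : SL(2, ℤ))⁻¹

omit [NeZero N] in
theorem mem_Gamma0_mul_iff (hℓN : ¬ ℓ ∣ N) (g : SL(2, ℤ)) (hg : g ∈ Gamma0 N) :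
    g ∈ Gamma0 (N * ℓ) ↔ (ℓ : ℤ) ∣ g 1 0 := by
  have hℓ : ℓ.Prime := Fact.out
  rw [Gamma0_mem, ZMod.intCast_zmod_eq_zero_iff_dvd] at hg ⊢
  push_cast
  constructor
  · intro h
    exact (dvd_mul_left _ _).trans h
  · intro h
    have hcop : IsCoprime (N : ℤ) (ℓ : ℤ) :=
      Nat.isCoprime_iff_coprime.mpr ((Nat.Prime.coprime_iff_not_dvd hℓ).mpr hℓN).symm
    exact hcop.mul_dvd hg h

omit [NeZero N] in
theorem cuspMap_injective (hℓN : ¬ ℓ ∣ N) : Function.Injective (cuspMap N (ℓ := ℓ)) := by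
  intro q₁ q₂ h
  rw [cuspMap, cuspMap, cuspOf_eq_iff, inv_inv] at h
  have hmem : ((q₁.out : Gamma0 N) : SL(2, ℤ))⁻¹ * ((q₂.out : Gamma0 N) : SL(2, ℤ)) ∈ Gamma0 N :=
    mul_mem (inv_mem q₁.out.2) q₂.out.2
  have h2 := (mem_Gamma0_mul_iff N hℓN _ hmem).mpr h
  have h3 : (QuotientGroup.mk q₁.out : QRel N ℓ) = QuotientGroup.mk q₂.out := by
    rw [QuotientGroup.eq, Subgroup.mem_subgroupOf]
    exact h2
  rwa [QuotientGroup.out_eq', QuotientGroup.out_eq'] at h3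

omit [NeZero N] in
theorem cuspMap_surjective (hℓN : ¬ ℓ ∣ N) : Function.Surjective (cuspMap N (ℓ := ℓ)) := by
  intro x
  obtain ⟨g, hg, hx⟩ := exists_cuspOf_eq hℓN x
  let γ : Gamma0 N := ⟨g⁻¹, inv_mem hg⟩
  refine ⟨QuotientGroup.mk γ, ?_⟩
  rw [cuspMap, ← hx, cuspOf_eq_iff]
  have h1 : (QuotientGroup.mk (QuotientGroup.mk γ : QRel N ℓ).out : QRel N ℓ) = QuotientGroup.mk γ :=
    QuotientGroup.out_eq' _
  rw [QuotientGroup.eq, Subgroup.mem_subgroupOf] at h1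
  have h2 := (mem_Gamma0_mul_iff N hℓN _ (Gamma0_mul_le N ℓ h1)).mp h1
  exact h2

omit [NeZero N] in
theorem cuspMap_bijective (hℓN : ¬ ℓ ∣ N) : Function.Bijective (cuspMap N (ℓ := ℓ)) :=
  ⟨cuspMap_injective N hℓN, cuspMap_surjective N hℓN⟩

/-- The embedding attached to the coset of `γ`, evaluated on `β f`, is precomposition of
`Phi N f` with the Prelude representative `heckeRep ℓ (∞ · γ⁻¹)`. -/
theorem merAut_Phi_heckeBetaBar (hℓN : ¬ ℓ ∣ N) (γ : SL(2, ℤ)) (hγ : γ ∈ Gamma0 N)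
    (f : ↥(modularFunctionFieldBar N)) :
    B2M.merAut γ (Phi (N * ℓ) (heckeBetaBar (AlgebraicClosure ℚ) N ℓ f))
      = merPre (heckeRep ℓ (cuspOf ℓ γ⁻¹)) (det_heckeRep_pos _) (Phi N f) := by
  have hg : (N : ℤ) ∣ (γ⁻¹ : SL(2, ℤ)) 1 0 :=
    (ZMod.intCast_zmod_eq_zero_iff_dvd _ _).mp (Gamma0_mem.mp (inv_mem hγ))
  obtain ⟨g', hg', e⟩ := heckeRep_mul hℓN (γ⁻¹ : SL(2, ℤ)) hg (∞ : OnePoint (ZMod ℓ))
  have hg'mem : g'⁻¹ ∈ Gamma0 N :=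
    inv_mem (Gamma0_mem.mpr ((ZMod.intCast_zmod_eq_zero_iff_dvd _ _).mpr hg'))
  have hD := det_heckeDiagMatrix_pos ℓ
  have e1 : B2M.merAut γ (merPre (heckeDiagMatrix ℓ) hD (Phi N f))
      = merPre (mapGL ℝ γ⁻¹) (B2M.det_mapGL_pos γ⁻¹) (merPre (heckeDiagMatrix ℓ) hD (Phi N f)) :=
    merAut_eq_merPre γ _
  have e2 : merPre (mapGL ℝ γ⁻¹) (B2M.det_mapGL_pos γ⁻¹) (merPre (heckeDiagMatrix ℓ) hD (Phi N f))
      = merPre (heckeDiagMatrix ℓ * mapGL ℝ γ⁻¹) (det_mul_pos hD (B2M.det_mapGL_pos γ⁻¹))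
        (Phi N f) :=
    (merPre_mul (heckeDiagMatrix ℓ) (mapGL ℝ γ⁻¹) hD (B2M.det_mapGL_pos γ⁻¹) (Phi N f)).symm
  have e3 : merPre (heckeDiagMatrix ℓ * mapGL ℝ γ⁻¹) (det_mul_pos hD (B2M.det_mapGL_pos γ⁻¹))
        (Phi N f)
      = merPre (mapGL ℝ g' * heckeRep ℓ (cuspOf ℓ γ⁻¹))
        (det_mul_pos (B2M.det_mapGL_pos g') (det_heckeRep_pos _)) (Phi N f) :=
    merPre_congr e _ _ (Phi N f)
  have e4 : merPre (mapGL ℝ g' * heckeRep ℓ (cuspOf ℓ γ⁻¹))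
        (det_mul_pos (B2M.det_mapGL_pos g') (det_heckeRep_pos _)) (Phi N f)
      = merPre (heckeRep ℓ (cuspOf ℓ γ⁻¹)) (det_heckeRep_pos _)
        (merPre (mapGL ℝ g') (B2M.det_mapGL_pos g') (Phi N f)) :=
    merPre_mul _ _ _ _ (Phi N f)
  have e5 : merPre (mapGL ℝ g') (B2M.det_mapGL_pos g') (Phi N f) = Phi N f := by
    rw [merPre_mapGL, merAut_Phi N g'⁻¹ hg'mem]
  rw [Phi_heckeBetaBar, e1, e2, e3, e4, e5]

/-- S5 (NORM-HECKE): `Phi N (Norm_α (β f)) = ∏_{x ∈ P¹(𝔽_ℓ)} (Phi N f) ∘ heckeRep ℓ x`. -/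
theorem Phi_norm_heckeAlphaBar_heckeBetaBar (hℓN : ¬ ℓ ∣ N) (f : ↥(modularFunctionFieldBar N)) :
    letI := algebraAlong (heckeAlphaBar (AlgebraicClosure ℚ) N ℓ)
    Phi N (Algebra.norm ↥(modularFunctionFieldBar N) (heckeBetaBar (AlgebraicClosure ℚ) N ℓ f))
      = ∏ x : OnePoint (ZMod ℓ), merPre (heckeRep ℓ x) (det_heckeRep_pos x) (Phi N f) := by
  rw [Phi_norm_heckeAlphaBar]
  refine Fintype.prod_bijective (cuspMap N (ℓ := ℓ)) (cuspMap_bijective N hℓN) _ _ (fun q => ?_)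
  have hq : relEmb N ℓ q = relEmb N ℓ (QuotientGroup.mk q.out) := by rw [QuotientGroup.out_eq']
  rw [hq, relEmb_mk, merAut_Phi_heckeBetaBar N hℓN _ q.out.2]
  rfl

end Main

end

end Fermat.Agent.S30.KH9160
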