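import Fermat.Agent.S30.KumHecke9160.Precomp
import Fermat.Agent.S24.Modular
import Fermat.Prelude.Def_ModularCurve_HeckeOperator
import Fermat.Prelude.Thm_ModularCurve_coeffMap_qExpand

/-!
# GALREP / KUM-HECKE (helper9160), S1 + S2: the bridge `Phi N : F_N →+* MerH` and the two
degeneracy maps

`Phi N = modMerToMerH N ∘ Theta N`.  Then
* `Phi_heckeAlphaBar` : `Phi (N * ℓ) (α f) = Phi N f`;
* `Phi_heckeBetaBar`  : `Phi (N * ℓ) (β f) = merPre (heckeDiagMatrix ℓ) (Phi N f)`,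
  i.e. `(β f)(τ) = f(ℓ τ)`.
-/

set_option autoImplicit false

open UpperHalfPlane Complex ModularCurve ModularForm
open scoped MatrixGroups Manifold Topology

namespace Fermat.Agent.S30.KH9160

open Fermat.Agent.S24

noncomputable section

/-- The bridge with values in `MerH`. -/
def Phi (N : ℕ) [NeZero N] : ↥(modularFunctionFieldBar N) →+* B2M.MerH :=
  (modMerToMerH N).comp (Theta N)

theorem Phi_apply (N : ℕ) [NeZero N] (f : ↥(modularFunctionFieldBar N)) :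
    Phi N f = modMerToMerH N (Theta N f) := rfl

theorem Phi_injective (N : ℕ) [NeZero N] : Function.Injective (Phi N) := (Phi N).injective

/-- `τ ↦ j(dτ)` in `HolH`. -/
def jdHolH (d : ℕ) [NeZero d] : B2M.HolH := modHolToHolH d (jdHol d d dvd_rfl)

theorem jdHolH_apply (d : ℕ) [NeZero d] (τ : ℍ) : (jdHolH d).1 τ = jC (dmul d τ) := rfl

theorem modHolToHolH_jdHol (N d : ℕ) [NeZero N] [NeZero d] (hd : d ∣ N) :
    modHolToHolH N (jdHol N d hd) = jdHolH d := rfl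

theorem modHolToHolH_constHol (N : ℕ) (c : ℂ) :
    modHolToHolH N (constHol N c) = B2M.constHol c := rfl

theorem Phi_algebraMap (N : ℕ) [NeZero N] (c : AlgebraicClosure ℚ) :
    Phi N (algebraMap (AlgebraicClosure ℚ) ↥(modularFunctionFieldBar N) c) = constMer (iotaC c) := by
  rw [Phi_apply, Theta_algebraMap]
  show modMerToMerH N (algebraMap (ModHol N) (ModMer N) (constHol N (iotaC c))) = _
  rw [modMerToMerH_algebraMap, modHolToHolH_constHol]
  rfl

theorem Phi_JdBar (N d : ℕ) [NeZero N] [NeZero d] (hd : d ∣ N) :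
    Phi N (JdBar N d hd) = algebraMap B2M.HolH B2M.MerH (jdHolH d) := by
  rw [Phi_apply, Theta_JdBar, modMerToMerH_algebraMap, modHolToHolH_jdHol]

/-- `Γ₀(N)`-invariance of the image of `Phi N`. -/
theorem merAut_Phi (N : ℕ) [NeZero N] (γ : SL(2, ℤ)) (hγ : γ ∈ CongruenceSubgroup.Gamma0 N)
    (f : ↥(modularFunctionFieldBar N)) : B2M.merAut γ (Phi N f) = Phi N f := by
  rw [Phi_apply, ← modMerToMerH_modAut]
  exact congrArg (modMerToMerH N) (b6_hH N γ hγ f)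

/-- Conversely the pointwise stabiliser of `Phi N (F_N)` is `Γ₀(N)`. -/
theorem mem_Gamma0_of_merAut_Phi (N : ℕ) [NeZero N] (γ : SL(2, ℤ))
    (h : ∀ f : ↥(modularFunctionFieldBar N), B2M.merAut γ (Phi N f) = Phi N f) :
    γ ∈ CongruenceSubgroup.Gamma0 N := by
  apply b6_hinj N γ
  intro f
  apply (modMerToMerH N).injective
  rw [b6_act_apply, modMerToMerH_modAut]
  exact h f

section Degeneracy

variable (N ℓ : ℕ) [NeZero N] [NeZero ℓ]

theorem heckeAlphaBar_JdBar (d : ℕ) [NeZero d] (hd : d ∣ N) :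
    heckeAlphaBar (AlgebraicClosure ℚ) N ℓ (JdBar N d hd)
      = JdBar (N * ℓ) d (hd.mul_right ℓ) := by
  apply Subtype.ext
  rw [coe_heckeAlphaBar]
  rfl

omit [NeZero N] in
theorem heckeBetaBar_JdBar (d : ℕ) [NeZero d] (hd : d ∣ N) :
    heckeBetaBar (AlgebraicClosure ℚ) N ℓ (JdBar N d hd)
      = JdBar (N * ℓ) (ℓ * d) (by rw [mul_comm ℓ d]; exact Nat.mul_dvd_mul hd dvd_rfl) := by
  apply Subtype.ext
  rw [coe_heckeBetaBar]
  show qExpand (AlgebraicClosure ℚ) ℓ (coeffEmb (AlgebraicClosure ℚ) (qExpand ℚ d jq))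
    = coeffEmb (AlgebraicClosure ℚ) (qExpand ℚ (ℓ * d) jq)
  rw [← qExpand_qExpand]
  exact (ModularCurve.coeffMap_qExpand _ ℓ _).symm

/-- S1: `Phi (N ℓ) ∘ α = Phi N`. -/
theorem Phi_heckeAlphaBar (f : ↥(modularFunctionFieldBar N)) :
    Phi (N * ℓ) (heckeAlphaBar (AlgebraicClosure ℚ) N ℓ f) = Phi N f := by
  have key : (Phi (N * ℓ)).comp (heckeAlphaBar (AlgebraicClosure ℚ) N ℓ).toRingHom = Phi N := by
    refine ringHom_ext_FN N _ _ (fun c => ?_) (fun d _ hd => ?_)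
    · show Phi (N * ℓ) (heckeAlphaBar (AlgebraicClosure ℚ) N ℓ (algebraMap _ _ c)) = _
      rw [AlgHom.commutes, Phi_algebraMap, Phi_algebraMap]
    · show Phi (N * ℓ) (heckeAlphaBar (AlgebraicClosure ℚ) N ℓ (JdBar N d hd)) = _
      rw [heckeAlphaBar_JdBar, Phi_JdBar, Phi_JdBar]
  exact congrArg (fun s : ↥(modularFunctionFieldBar N) →+* B2M.MerH => s f) key

theorem dmul_mul_eq (d : ℕ) [NeZero d] (τ : ℍ) :
    dmul (ℓ * d) τ = dmul d (heckeDiagMatrix ℓ • τ) := by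
  have hℓ : 0 < ℓ := NeZero.pos ℓ
  have hd : 0 < d := NeZero.pos d
  apply UpperHalfPlane.ext
  rw [coe_dmul (Nat.mul_pos hℓ hd), coe_dmul hd, coe_heckeDiagMatrix_smul hℓ.ne']
  push_cast
  ring

theorem jdHolH_mul (d : ℕ) [NeZero d] :
    jdHolH (ℓ * d) = holPre (heckeDiagMatrix ℓ) (det_heckeDiagMatrix_pos ℓ) (jdHolH d) := by
  apply Subtype.ext
  funext τ
  show jC (dmul (ℓ * d) τ) = jC (dmul d (heckeDiagMatrix ℓ • τ))
  rw [dmul_mul_eq]

theorem Phi_heckeBetaBar_JdBar (d : ℕ) [NeZero d] (hd : d ∣ N) :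
    Phi (N * ℓ) (heckeBetaBar (AlgebraicClosure ℚ) N ℓ (JdBar N d hd))
      = merPre (heckeDiagMatrix ℓ) (det_heckeDiagMatrix_pos ℓ) (Phi N (JdBar N d hd)) := by
  rw [heckeBetaBar_JdBar N ℓ d hd, Phi_JdBar (N * ℓ) (ℓ * d), Phi_JdBar N d hd, merPre_algebraMap,
    jdHolH_mul]

theorem Phi_heckeBetaBar_algebraMap (c : AlgebraicClosure ℚ) :
    Phi (N * ℓ) (heckeBetaBar (AlgebraicClosure ℚ) N ℓ
        (algebraMap (AlgebraicClosure ℚ) ↥(modularFunctionFieldBar N) c))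
      = merPre (heckeDiagMatrix ℓ) (det_heckeDiagMatrix_pos ℓ)
        (Phi N (algebraMap (AlgebraicClosure ℚ) ↥(modularFunctionFieldBar N) c)) := by
  rw [AlgHom.commutes, Phi_algebraMap, Phi_algebraMap, merPre_constMer]

/-- S2: `Phi (N ℓ) (β f) = (Phi N f)(ℓ τ)`. -/
theorem Phi_heckeBetaBar (f : ↥(modularFunctionFieldBar N)) :
    Phi (N * ℓ) (heckeBetaBar (AlgebraicClosure ℚ) N ℓ f)
      = merPre (heckeDiagMatrix ℓ) (det_heckeDiagMatrix_pos ℓ) (Phi N f) := by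
  have key : (Phi (N * ℓ)).comp (heckeBetaBar (AlgebraicClosure ℚ) N ℓ).toRingHom
      = (merPre (heckeDiagMatrix ℓ) (det_heckeDiagMatrix_pos ℓ)).comp (Phi N) :=
    ringHom_ext_FN N _ _ (fun c => Phi_heckeBetaBar_algebraMap N ℓ c)
      (fun d _ hd => Phi_heckeBetaBar_JdBar N ℓ d hd)
  exact congrArg (fun s : ↥(modularFunctionFieldBar N) →+* B2M.MerH => s f) key

end Degeneracy

end

end Fermat.Agent.S30.KH9160
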