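import Fermat.Agent.S24.ModField
import Fermat.Prelude.Def_ModularForm_HeckeOperator

/-!
# GALREP / KUM-HECKE (helper9160), S0: precomposition with `GL(2,ℝ)⁺` on `HolH` and `MerH`

`holPre δ hδ f = f ∘ (δ • ·)` for `δ : GL (Fin 2) ℝ` with `0 < det δ`, a ring endomorphism of the
landed `S24.B2M.HolH`; `merPre δ hδ` its extension to the fraction field `MerH`.
`merPre (δ * δ') = merPre δ' ∘ merPre δ` (anti-multiplicative), `merAut γ = merPre (mapGL γ⁻¹)`.
-/

set_option autoImplicit false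

open UpperHalfPlane Complex
open scoped MatrixGroups Manifold Topology

namespace Fermat.Agent.S30.KH9160

open Fermat.Agent.S24

noncomputable section

/-- Precomposition with `δ ∈ GL(2,ℝ)⁺`, as a ring endomorphism of `HolH`. -/
def holPre (δ : GL (Fin 2) ℝ) (hδ : 0 < δ.det.val) : B2M.HolH →+* B2M.HolH where
  toFun f := ⟨fun τ => f.1 (δ • τ), f.2.comp (mdifferentiable_smul hδ)⟩
  map_one' := rfl
  map_mul' _ _ := rfl
  map_zero' := rfl
  map_add' _ _ := rfl

theorem holPre_apply (δ : GL (Fin 2) ℝ) (hδ : 0 < δ.det.val) (f : B2M.HolH) (τ : ℍ) :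
    (holPre δ hδ f).1 τ = f.1 (δ • τ) := rfl

theorem holPre_injective (δ : GL (Fin 2) ℝ) (hδ : 0 < δ.det.val) :
    Function.Injective (holPre δ hδ) := by
  intro f g h
  apply Subtype.ext
  funext τ
  have h1 := congrArg (fun k : B2M.HolH => k.1 (δ⁻¹ • τ)) h
  simpa only [holPre_apply, smul_inv_smul] using h1

/-- Precomposition with `δ ∈ GL(2,ℝ)⁺` on the fraction field `MerH`. -/
def merPre (δ : GL (Fin 2) ℝ) (hδ : 0 < δ.det.val) : B2M.MerH →+* B2M.MerH :=
  IsFractionRing.lift (g := (algebraMap B2M.HolH B2M.MerH).comp (holPre δ hδ))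
    ((IsFractionRing.injective B2M.HolH B2M.MerH).comp (holPre_injective δ hδ))

theorem merPre_algebraMap (δ : GL (Fin 2) ℝ) (hδ : 0 < δ.det.val) (f : B2M.HolH) :
    merPre δ hδ (algebraMap B2M.HolH B2M.MerH f) = algebraMap B2M.HolH B2M.MerH (holPre δ hδ f) := by
  rw [merPre, IsFractionRing.lift_algebraMap]
  rfl

/-- Two ring homs out of `MerH` agreeing on `HolH` are equal. -/
theorem merH_ringHom_ext {R : Type*} [Semiring R] {φ ψ : B2M.MerH →+* R}
    (h : ∀ f : B2M.HolH, φ (algebraMap B2M.HolH B2M.MerH f) = ψ (algebraMap B2M.HolH B2M.MerH f)) :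
    φ = ψ :=
  IsLocalization.ringHom_ext (nonZeroDivisors B2M.HolH) (RingHom.ext h)

theorem det_mul_pos {δ δ' : GL (Fin 2) ℝ} (hδ : 0 < δ.det.val) (hδ' : 0 < δ'.det.val) :
    0 < (δ * δ').det.val := by
  rw [map_mul, Units.val_mul]
  exact mul_pos hδ hδ'

theorem det_one_pos : 0 < (1 : GL (Fin 2) ℝ).det.val := by simp

/-- `merPre` is anti-multiplicative: `f ∘ (δ δ') = (f ∘ δ) ∘ δ'`. -/
theorem merPre_mul (δ δ' : GL (Fin 2) ℝ) (hδ : 0 < δ.det.val) (hδ' : 0 < δ'.det.val)
    (h : B2M.MerH) :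
    merPre (δ * δ') (det_mul_pos hδ hδ') h = merPre δ' hδ' (merPre δ hδ h) := by
  have key : merPre (δ * δ') (det_mul_pos hδ hδ') = (merPre δ' hδ').comp (merPre δ hδ) := by
    apply merH_ringHom_ext
    intro f
    rw [RingHom.comp_apply, merPre_algebraMap, merPre_algebraMap, merPre_algebraMap]
    congr 1
    apply Subtype.ext
    funext τ
    show f.1 ((δ * δ') • τ) = f.1 (δ • δ' • τ)
    rw [mul_smul]
  exact congrArg (fun s : B2M.MerH →+* B2M.MerH => s h) key

theorem merPre_one (h : B2M.MerH) : merPre 1 det_one_pos h = h := by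
  have key : merPre 1 det_one_pos = RingHom.id B2M.MerH := by
    apply merH_ringHom_ext
    intro f
    rw [merPre_algebraMap, RingHom.id_apply]
    congr 1
    apply Subtype.ext
    funext τ
    show f.1 ((1 : GL (Fin 2) ℝ) • τ) = f.1 τ
    rw [one_smul]
  exact congrArg (fun s : B2M.MerH →+* B2M.MerH => s h) key

/-- Proof irrelevance / congruence in the matrix. -/
theorem merPre_congr {δ δ' : GL (Fin 2) ℝ} (e : δ = δ') (hδ : 0 < δ.det.val)
    (hδ' : 0 < δ'.det.val) (h : B2M.MerH) : merPre δ hδ h = merPre δ' hδ' h := by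
  subst e
  rfl

/-- The landed `merAut γ` is precomposition with `γ⁻¹`. -/
theorem merAut_eq_merPre (γ : SL(2, ℤ)) (h : B2M.MerH) :
    B2M.merAut γ h = merPre (Matrix.SpecialLinearGroup.mapGL ℝ γ⁻¹) (B2M.det_mapGL_pos γ⁻¹) h := by
  have key : ((B2M.merAut γ : B2M.MerH ≃+* B2M.MerH) : B2M.MerH →+* B2M.MerH)
      = merPre (Matrix.SpecialLinearGroup.mapGL ℝ γ⁻¹) (B2M.det_mapGL_pos γ⁻¹) := by
    apply merH_ringHom_ext
    intro f
    rw [merPre_algebraMap]
    show B2M.merAut γ (algebraMap B2M.HolH B2M.MerH f) = _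
    rw [B2M.merAut_algebraMap]
    rfl
  exact congrArg (fun s : B2M.MerH →+* B2M.MerH => s h) key

/-- Precomposition with `γ ∈ SL(2,ℤ)` is `merAut γ⁻¹`. -/
theorem merPre_mapGL (γ : SL(2, ℤ)) (h : B2M.MerH) :
    merPre (Matrix.SpecialLinearGroup.mapGL ℝ γ) (B2M.det_mapGL_pos γ) h = B2M.merAut γ⁻¹ h := by
  rw [merAut_eq_merPre]
  exact merPre_congr (by rw [inv_inv]) _ _ h

/-- Constants of `MerH`. -/
def constMer : ℂ →+* B2M.MerH := (algebraMap B2M.HolH B2M.MerH).comp B2M.constHol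

theorem merPre_constMer (δ : GL (Fin 2) ℝ) (hδ : 0 < δ.det.val) (c : ℂ) :
    merPre δ hδ (constMer c) = constMer c := by
  show merPre δ hδ (algebraMap B2M.HolH B2M.MerH (B2M.constHol c)) = _
  rw [merPre_algebraMap]
  rfl

theorem merAut_constMer (γ : SL(2, ℤ)) (c : ℂ) : B2M.merAut γ (constMer c) = constMer c := by
  rw [merAut_eq_merPre, merPre_constMer]

theorem constMer_injective : Function.Injective constMer := constMer.injective

end

end Fermat.Agent.S30.KH9160
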